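import Fermat.Agent.S55.Local.H478.FiltH1
import Fermat.Agent.S55.Local.H478.FiltH2

/-!
# S55 / layer G / leaf G-SIND:UCT (helper758), part 1: the abstract theorem

`R` a commutative ring with an action `φ : H →* (R ≃+* R)` of a finite group `H`, `I` an
`H`-stable ideal such that `R` is `I`-adically separated and complete, `b : R` an element of
trace `1`.  If the first graded step (`Rˣ → (R/I)ˣ`) is cohomologically trivial in degrees `1`
and `2` (hypotheses `h01`, `h02`, in "cleared denominators" form), then every multiplicative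
`1`-cocycle and every multiplicative `2`-cocycle of `H` with values in `Rˣ` is a coboundary.

Everything is stated WITHOUT instances on `Rˣ`: `IsCoc1 φ`, `IsCob1 φ`, `IsCoc2 φ`, `IsCob2 φ`.
-/

set_option autoImplicit false
set_option linter.style.haveILetI false

namespace Fermat.Agent.S55.G.SIndH237.H758

open groupCohomology Finset

section Defs

variable {H R : Type} [Group H] [CommRing R] (φ : H →* (R ≃+* R))

/-- `g • u` for a unit `u`. -/
def uSmul (g : H) (u : Rˣ) : Rˣ := Units.map ((φ g : R ≃+* R) : R →* R) u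

@[simp] lemma coe_uSmul (g : H) (u : Rˣ) : ((uSmul φ g u : Rˣ) : R) = φ g (u : R) := rfl

lemma phi_mul_apply (g h : H) (x : R) : φ (g * h) x = φ g (φ h x) := by
  rw [map_mul]; rfl

lemma phi_one_apply (x : R) : φ 1 x = x := by
  rw [map_one]; rfl

/-- The action of `H` on `Rˣ` induced by `φ` (NOT an instance; use with `letI`). -/
abbrev unitsAct : MulDistribMulAction H Rˣ where
  smul g u := uSmul φ g u
  one_smul u := Units.ext (phi_one_apply φ _)
  mul_smul g h u := Units.ext (phi_mul_apply φ g h _)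
  smul_mul g u v := Units.ext (by
    show φ g ((u * v : Rˣ) : R) = φ g u * φ g v
    rw [Units.val_mul, map_mul])
  smul_one g := Units.ext (by
    show φ g ((1 : Rˣ) : R) = 1
    rw [Units.val_one, map_one])

/-- multiplicative 1-cocycles of `H` in `Rˣ` -/
def IsCoc1 (c : H → Rˣ) : Prop := ∀ g h : H, c (g * h) = uSmul φ g (c h) * c g

/-- multiplicative 1-coboundaries of `H` in `Rˣ` -/
def IsCob1 (c : H → Rˣ) : Prop := ∃ m : Rˣ, ∀ g : H, uSmul φ g m / m = c g

/-- multiplicative 2-cocycles of `H` in `Rˣ` -/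
def IsCoc2 (c : H × H → Rˣ) : Prop :=
  ∀ g h j : H, c (g * h, j) * c (g, h) = uSmul φ g (c (h, j)) * c (g, h * j)

/-- multiplicative 2-coboundaries of `H` in `Rˣ` -/
def IsCob2 (c : H × H → Rˣ) : Prop :=
  ∃ x : H → Rˣ, ∀ g h : H, uSmul φ g (x h) / x (g * h) * x g = c (g, h)

lemma isCoc1_iff (c : H → Rˣ) :
    IsCoc1 φ c ↔ @IsMulCocycle₁ H Rˣ _ _ (unitsAct φ).toSMul c := Iff.rfl

lemma isCob1_iff (c : H → Rˣ) :
    IsCob1 φ c ↔ @IsMulCoboundary₁ H Rˣ _ (unitsAct φ).toSMul c := Iff.rfl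

lemma isCoc2_iff (c : H × H → Rˣ) :
    IsCoc2 φ c ↔ @IsMulCocycle₂ H Rˣ _ _ (unitsAct φ).toSMul c := Iff.rfl

lemma isCob2_iff (c : H × H → Rˣ) :
    IsCob2 φ c ↔ @IsMulCoboundary₂ H Rˣ _ _ (unitsAct φ).toSMul c := Iff.rfl

end Defs

section Fil

variable {R : Type} [CommRing R] (I : Ideal R)

/-- The filtration of `Rˣ` by the subgroups `1 + I ^ j`. -/
def unitFil (j : ℕ) : Subgroup Rˣ where
  carrier := {u | (u : R) - 1 ∈ I ^ j}
  one_mem' := by
    show ((1 : Rˣ) : R) - 1 ∈ I ^ j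
    rw [Units.val_one, sub_self]
    exact (I ^ j).zero_mem
  mul_mem' := by
    intro a b ha hb
    show ((a * b : Rˣ) : R) - 1 ∈ I ^ j
    have h : ((a * b : Rˣ) : R) - 1 = (a : R) * ((b : R) - 1) + ((a : R) - 1) := by
      rw [Units.val_mul]; ring
    rw [h]
    exact (I ^ j).add_mem ((I ^ j).mul_mem_left _ hb) ha
  inv_mem' := by
    intro a ha
    show ((a⁻¹ : Rˣ) : R) - 1 ∈ I ^ j
    have h : ((a⁻¹ : Rˣ) : R) - 1 = -(((a⁻¹ : Rˣ) : R) * ((a : R) - 1)) := by
      rw [mul_sub, Units.inv_mul, mul_one]; ring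
    rw [h]
    exact (I ^ j).neg_mem ((I ^ j).mul_mem_left _ ha)

lemma mem_unitFil {j : ℕ} {u : Rˣ} : u ∈ unitFil I j ↔ (u : R) - 1 ∈ I ^ j := Iff.rfl

lemma unitFil_zero (u : Rˣ) : u ∈ unitFil I 0 := by
  rw [mem_unitFil, pow_zero, Ideal.one_eq_top]
  exact Submodule.mem_top

lemma div_mem_unitFil_iff {j : ℕ} (u v : Rˣ) :
    u / v ∈ unitFil I j ↔ (u : R) - v ∈ I ^ j := by
  rw [mem_unitFil]
  have h1 : ((u / v : Rˣ) : R) - 1 = ((u : R) - v) * ((v⁻¹ : Rˣ) : R) := by
    rw [div_eq_mul_inv, Units.val_mul, sub_mul, Units.mul_inv]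
  have h2 : (u : R) - v = (((u / v : Rˣ) : R) - 1) * (v : R) := by
    rw [h1, mul_assoc, Units.inv_mul, mul_one]
  constructor
  · intro h
    rw [h2]
    exact (I ^ j).mul_mem_right _ h
  · intro h
    rw [h1]
    exact (I ^ j).mul_mem_right _ h

lemma unitFil_anti (j : ℕ) : unitFil I (j + 1) ≤ unitFil I j := by
  intro u hu
  exact Ideal.pow_le_pow_right (Nat.le_succ j) hu

variable (hsep : ∀ x : R, (∀ j, x ∈ I ^ j) → x = 0)
  (hcomp : ∀ x : ℕ → R, (∀ j, x (j + 1) - x j ∈ I ^ j) → ∃ s, ∀ j, s - x j ∈ I ^ j)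

include hsep hcomp in
/-- `1 + I ⊆ Rˣ`. -/
lemma isUnit_one_add {x : R} (hx : x ∈ I) : IsUnit (1 + x) := by
  obtain ⟨s, hs⟩ := hcomp (fun n => ∑ i ∈ range n, (-x) ^ i) (fun j => by
    rw [sum_range_succ, add_sub_cancel_left]
    exact Ideal.pow_mem_pow (I.neg_mem hx) j)
  have hgeo : ∀ n, (1 + x) * ∑ i ∈ range n, (-x) ^ i = 1 - (-x) ^ n := fun n => by
    have := mul_neg_geom_sum (-x) n
    rwa [sub_neg_eq_add] at this
  have h1 : (1 + x) * s - 1 = 0 := by
    apply hsep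
    intro j
    have h2 : (1 + x) * s - 1 = (1 + x) * (s - ∑ i ∈ range j, (-x) ^ i) - (-x) ^ j := by
      rw [mul_sub, hgeo]; ring
    rw [h2]
    exact (I ^ j).sub_mem ((I ^ j).mul_mem_left _ (hs j)) (Ideal.pow_mem_pow (I.neg_mem hx) j)
  exact IsUnit.of_mul_eq_one s (sub_eq_zero.1 h1)

include hsep hcomp in
/-- an element congruent to a unit modulo `I` is a unit -/
lemma isUnit_of_sub_mem {s : R} (u : Rˣ) (h : s - u ∈ I) : IsUnit s := by
  have h1 : IsUnit (1 + ((u⁻¹ : Rˣ) : R) * (s - u)) :=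
    isUnit_one_add I hsep hcomp (I.mul_mem_left _ h)
  have h2 : s = (u : R) * (1 + ((u⁻¹ : Rˣ) : R) * (s - u)) := by
    rw [mul_add, mul_one, ← mul_assoc, Units.mul_inv, one_mul]; ring
  rw [h2]
  exact u.isUnit.mul h1

include hsep hcomp in
lemma unitFil_complete (u : ℕ → Rˣ) (hu : ∀ j, u j ∈ unitFil I j) :
    ∃ s : Rˣ, ∀ n, s / ∏ j ∈ range n, u j ∈ unitFil I n := by
  obtain ⟨s, hs⟩ := hcomp (fun n => ((∏ j ∈ range n, u j : Rˣ) : R)) (fun j => by
    have h : ((∏ i ∈ range (j + 1), u i : Rˣ) : R) - ((∏ i ∈ range j, u i : Rˣ) : R) =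
        ((∏ i ∈ range j, u i : Rˣ) : R) * ((u j : R) - 1) := by
      rw [prod_range_succ, Units.val_mul]; ring
    show ((∏ i ∈ range (j + 1), u i : Rˣ) : R) - ((∏ i ∈ range j, u i : Rˣ) : R) ∈ I ^ j
    rw [h]
    exact (I ^ j).mul_mem_left _ (hu j))
  have hs1 : s - ((∏ j ∈ range 1, u j : Rˣ) : R) ∈ I := by
    have := hs 1
    rwa [pow_one] at this
  have hsu : IsUnit s := isUnit_of_sub_mem I hsep hcomp _ hs1
  refine ⟨hsu.unit, fun n => ?_⟩
  rw [div_mem_unitFil_iff]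
  exact hs n

include hsep in
lemma unitFil_separated (x : Rˣ) (hx : ∀ j, x ∈ unitFil I j) : x = 1 := by
  apply Units.ext
  rw [Units.val_one, ← sub_eq_zero]
  exact hsep _ hx

end Fil

section Main

variable {H R : Type} [Group H] [CommRing R] (φ : H →* (R ≃+* R)) (I : Ideal R)
  (hI : ∀ (h : H) (x : R), x ∈ I → φ h x ∈ I)

include hI in
lemma phi_mem_pow (j : ℕ) (h : H) {x : R} (hx : x ∈ I ^ j) : φ h x ∈ I ^ j := by
  have h1 : Ideal.map ((φ h : R ≃+* R) : R →+* R) I ≤ I :=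
    Ideal.map_le_iff_le_comap.2 (fun y hy => hI h y hy)
  have h2 : Ideal.map ((φ h : R ≃+* R) : R →+* R) (I ^ j) ≤ I ^ j := by
    rw [Ideal.map_pow]
    exact Ideal.pow_right_mono h1 j
  exact h2 (Ideal.mem_map_of_mem ((φ h : R ≃+* R) : R →+* R) hx)

include hI in
lemma uSmul_mem_unitFil (j : ℕ) (g : H) {u : Rˣ} (hu : u ∈ unitFil I j) :
    uSmul φ g u ∈ unitFil I j := by
  rw [mem_unitFil, coe_uSmul]
  have := phi_mem_pow φ I hI j g hu
  rwa [map_sub, map_one] at this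

variable [Fintype H]

lemma sum_phi_mul_left (g : H) (f : H → R) : ∑ h : H, f (g * h) = ∑ h : H, f h :=
  Fintype.sum_equiv (Equiv.mulLeft g) _ _ (fun _ => rfl)

lemma pow_mul_mem_succ {j : ℕ} {x y : R} (hx : x ∈ I ^ (j + 1)) (hy : y ∈ I ^ (j + 1)) :
    x * y ∈ I ^ (j + 2) := by
  have h1 : x * y ∈ I ^ (j + 1) * I ^ (j + 1) := Ideal.mul_mem_mul hx hy
  rw [← pow_add] at h1
  exact Ideal.pow_le_pow_right (by omega) h1

variable (hsep : ∀ x : R, (∀ j, x ∈ I ^ j) → x = 0)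
  (hcomp : ∀ x : ℕ → R, (∀ j, x (j + 1) - x j ∈ I ^ j) → ∃ s, ∀ j, s - x j ∈ I ^ j)
  (b : R) (hb : ∑ h : H, φ h b = 1)

include hI hsep hcomp hb in
/-- graded step for 1-cocycles, index `j + 1 ≥ 1` -/
lemma graded1 (j : ℕ) (c : H → Rˣ) (hc : IsCoc1 φ c) (hcj : ∀ g, c g ∈ unitFil I (j + 1)) :
    ∃ m ∈ unitFil I (j + 1), ∀ g, c g / (uSmul φ g m / m) ∈ unitFil I (j + 2) := by
  set a : H → R := fun g => (c g : R) - 1 with ha
  have haJ : ∀ g, a g ∈ I ^ (j + 1) := fun g => hcj g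
  have hrel : ∀ g h, a (g * h) = φ g (a h) + a g + φ g (a h) * a g := by
    intro g h
    have h1 := congrArg (fun u : Rˣ => (u : R)) (hc g h)
    simp only [Units.val_mul, coe_uSmul] at h1
    simp only [ha, map_sub, map_one]
    rw [h1]; ring
  set x : R := -∑ h : H, φ h b * a h with hx
  have hxJ : x ∈ I ^ (j + 1) :=
    (I ^ (j + 1)).neg_mem ((I ^ (j + 1)).sum_mem fun h _ => (I ^ (j + 1)).mul_mem_left _ (haJ h))
  have hxI : x ∈ I := Ideal.pow_le_self (Nat.succ_ne_zero j) hxJ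
  obtain ⟨m, hm⟩ := isUnit_one_add I hsep hcomp hxI
  have hmJ : m ∈ unitFil I (j + 1) := by
    rw [mem_unitFil, hm, add_sub_cancel_left]
    exact hxJ
  refine ⟨m, hmJ, fun g => ?_⟩
  have hgroup : c g / (uSmul φ g m / m) = (c g * m) / uSmul φ g m := by
    rw [div_div_eq_mul_div]
  rw [hgroup, div_mem_unitFil_iff, Units.val_mul, coe_uSmul, hm, map_add, map_one]
  have hsum1 : ∑ h : H, φ (g * h) b = 1 := by
    rw [sum_phi_mul_left g (fun h => φ h b), hb]
  have hx' : x = -∑ h : H, φ (g * h) b * a (g * h) := by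
    rw [hx, sum_phi_mul_left g (fun h => φ h b * a h)]
  have hgx : φ g x = -∑ h : H, φ (g * h) b * φ g (a h) := by
    rw [hx, map_neg, map_sum]
    congr 1
    refine Finset.sum_congr rfl fun h _ => ?_
    rw [map_mul, phi_mul_apply]
  have key : (c g : R) * (1 + x) - (1 + φ g x) =
      -∑ h : H, φ (g * h) b * (φ g (a h) * a g) + a g * x := by
    have hcg : (c g : R) = 1 + a g := by simp only [ha]; ring
    have e1 : x - φ g x = -∑ h : H, φ (g * h) b * (a g + φ g (a h) * a g) := by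
      rw [hgx]
      conv_lhs => rw [hx']
      rw [neg_sub_neg, ← Finset.sum_sub_distrib, ← Finset.sum_neg_distrib]
      refine Finset.sum_congr rfl fun h _ => ?_
      rw [hrel g h]; ring
    have e2 : ∑ h : H, φ (g * h) b * (a g + φ g (a h) * a g) =
        a g + ∑ h : H, φ (g * h) b * (φ g (a h) * a g) := by
      simp only [mul_add]
      rw [Finset.sum_add_distrib, ← Finset.sum_mul, hsum1, one_mul]
    rw [hcg]
    have : (1 + a g) * (1 + x) - (1 + φ g x) = a g + (x - φ g x) + a g * x := by ring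
    rw [this, e1, e2]; ring
  rw [key]
  refine (I ^ (j + 2)).add_mem ((I ^ (j + 2)).neg_mem ((I ^ (j + 2)).sum_mem fun h _ => ?_))
    (pow_mul_mem_succ I (haJ g) hxJ)
  exact (I ^ (j + 2)).mul_mem_left _
    (pow_mul_mem_succ I (phi_mem_pow φ I hI (j + 1) g (haJ h)) (haJ g))

include hI hsep hcomp hb in
/-- graded step for 2-cocycles, index `j + 1 ≥ 1` -/
lemma graded2 (j : ℕ) (c : H × H → Rˣ) (hc : IsCoc2 φ c)
    (hcj : ∀ p, c p ∈ unitFil I (j + 1)) :
    ∃ x : H → Rˣ, (∀ g, x g ∈ unitFil I (j + 1)) ∧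
      ∀ g h, c (g, h) / (uSmul φ g (x h) / x (g * h) * x g) ∈ unitFil I (j + 2) := by
  set a : H × H → R := fun p => (c p : R) - 1 with ha
  have haJ : ∀ p, a p ∈ I ^ (j + 1) := fun p => hcj p
  -- additive cocycle relation with explicit error
  have hrel : ∀ g h k, φ g (a (h, k)) =
      a (g * h, k) + a (g, h) - a (g, h * k) +
        (a (g * h, k) * a (g, h) - φ g (a (h, k)) * a (g, h * k)) := by
    intro g h k
    have h1 := congrArg (fun u : Rˣ => (u : R)) (hc g h k)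
    simp only [Units.val_mul, coe_uSmul] at h1
    have e1 : (c (g * h, k) : R) = 1 + a (g * h, k) := by simp only [ha]; ring
    have e2 : (c (g, h) : R) = 1 + a (g, h) := by simp only [ha]; ring
    have e3 : (c (g, h * k) : R) = 1 + a (g, h * k) := by simp only [ha]; ring
    have e4 : φ g (c (h, k) : R) = 1 + φ g (a (h, k)) := by
      simp only [ha, map_sub, map_one]; ring
    rw [e1, e2, e3, e4] at h1
    linear_combination -h1
  set ξ : H → R := fun g => ∑ k : H, φ (g * k) b * a (g, k) with hξ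
  have hξJ : ∀ g, ξ g ∈ I ^ (j + 1) := fun g =>
    (I ^ (j + 1)).sum_mem fun k _ => (I ^ (j + 1)).mul_mem_left _ (haJ _)
  have hξI : ∀ g, ξ g ∈ I := fun g => Ideal.pow_le_self (Nat.succ_ne_zero j) (hξJ g)
  choose x hx using fun g => isUnit_one_add I hsep hcomp (hξI g)
  have hxJ : ∀ g, x g ∈ unitFil I (j + 1) := fun g => by
    rw [mem_unitFil, hx, add_sub_cancel_left]
    exact hξJ g
  refine ⟨x, hxJ, fun g h => ?_⟩
  have hgroup : c (g, h) / (uSmul φ g (x h) / x (g * h) * x g) =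
      (c (g, h) * x (g * h)) / (uSmul φ g (x h) * x g) := by
    rw [div_mul_eq_mul_div, div_div_eq_mul_div]
  rw [hgroup, div_mem_unitFil_iff, Units.val_mul, Units.val_mul, coe_uSmul, hx, hx, hx,
    map_add, map_one]
  have hsum1 : ∑ k : H, φ (g * h * k) b = 1 := by
    rw [sum_phi_mul_left (g * h) (fun k => φ k b), hb]
  have hgξ : φ g (ξ h) = ∑ k : H, φ (g * h * k) b * φ g (a (h, k)) := by
    rw [hξ, map_sum]
    refine Finset.sum_congr rfl fun k _ => ?_
    rw [map_mul, ← phi_mul_apply, mul_assoc]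
  have hξg : ξ g = ∑ k : H, φ (g * h * k) b * a (g, h * k) := by
    show ∑ k : H, φ (g * k) b * a (g, k) = _
    rw [← sum_phi_mul_left h (fun k => φ (g * k) b * a (g, k))]
    refine Finset.sum_congr rfl fun k _ => ?_
    rw [mul_assoc]
  have hξgh : ξ (g * h) = ∑ k : H, φ (g * h * k) b * a (g * h, k) := rfl
  -- main identity
  have key : φ g (ξ h) - ξ (g * h) + ξ g - a (g, h) =
      ∑ k : H, φ (g * h * k) b *
        (a (g * h, k) * a (g, h) - φ g (a (h, k)) * a (g, h * k)) := by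
    have e0 : a (g, h) = ∑ k : H, φ (g * h * k) b * a (g, h) := by
      rw [← Finset.sum_mul, hsum1, one_mul]
    rw [hgξ, hξg, hξgh]
    conv_lhs => rw [e0]
    rw [← Finset.sum_sub_distrib, ← Finset.sum_add_distrib, ← Finset.sum_sub_distrib]
    refine Finset.sum_congr rfl fun k _ => ?_
    linear_combination (φ (g * h * k) b) * hrel g h k
  have hfin : (c (g, h) : R) * (1 + ξ (g * h)) - (1 + φ g (ξ h)) * (1 + ξ g) =
      -(φ g (ξ h) - ξ (g * h) + ξ g - a (g, h)) + a (g, h) * ξ (g * h) - φ g (ξ h) * ξ g := by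
    have hcg : (c (g, h) : R) = 1 + a (g, h) := by simp only [ha]; ring
    rw [hcg]; ring
  rw [hfin, key]
  refine (I ^ (j + 2)).sub_mem ((I ^ (j + 2)).add_mem ((I ^ (j + 2)).neg_mem
    ((I ^ (j + 2)).sum_mem fun k _ => (I ^ (j + 2)).mul_mem_left _ ?_)) ?_) ?_
  · exact (I ^ (j + 2)).sub_mem (pow_mul_mem_succ I (haJ _) (haJ _))
      (pow_mul_mem_succ I (phi_mem_pow φ I hI (j + 1) g (haJ _)) (haJ _))
  · exact pow_mul_mem_succ I (haJ _) (hξJ _)
  · exact pow_mul_mem_succ I (phi_mem_pow φ I hI (j + 1) g (hξJ _)) (hξJ _)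

include hI hsep hcomp hb in
/-- **Abstract UCT, degree 1.** -/
theorem abs_h1
    (h01 : ∀ c : H → Rˣ, IsCoc1 φ c → ∃ m : Rˣ, ∀ g, (c g : R) * m - φ g m ∈ I)
    (c : H → Rˣ) (hc : IsCoc1 φ c) : IsCob1 φ c := by
  letI := unitsAct φ
  obtain ⟨m, -, hm⟩ := Fermat.Agent.S55.Local.H478.filtH1 H Rˣ (unitFil I)
    (unitFil_anti I)
    (fun j g x hx => uSmul_mem_unitFil φ I hI j g hx)
    (unitFil_complete I hsep hcomp)
    (unitFil_separated I hsep)
    (fun j c' hc' hc'j => by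
      rcases j with _ | j
      · obtain ⟨m, hm⟩ := h01 c' hc'
        refine ⟨m, unitFil_zero I m, fun g => ?_⟩
        have hgroup : c' g / (g • m / m) = (c' g * m) / uSmul φ g m := by
          rw [div_div_eq_mul_div]; rfl
        rw [hgroup, div_mem_unitFil_iff, pow_one, Units.val_mul, coe_uSmul]
        exact hm g
      · exact graded1 φ I hI hsep hcomp b hb j c' hc' hc'j)
    c hc (fun g => unitFil_zero I _)
  exact ⟨m, hm⟩

include hI hsep hcomp hb in
/-- **Abstract UCT, degree 2.** -/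
theorem abs_h2
    (h02 : ∀ c : H × H → Rˣ, IsCoc2 φ c →
      ∃ x : H → Rˣ, ∀ g h, (c (g, h) : R) * x (g * h) - φ g (x h) * x g ∈ I)
    (c : H × H → Rˣ) (hc : IsCoc2 φ c) : IsCob2 φ c := by
  letI := unitsAct φ
  obtain ⟨x, -, hx⟩ := Fermat.Agent.S55.Local.H478.filtH2 H Rˣ (unitFil I)
    (unitFil_anti I)
    (fun j g x hx => uSmul_mem_unitFil φ I hI j g hx)
    (unitFil_complete I hsep hcomp)
    (unitFil_separated I hsep)
    (fun j c' hc' hc'j => by
      rcases j with _ | j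
      · obtain ⟨x, hx⟩ := h02 c' hc'
        refine ⟨x, fun g => unitFil_zero I _, fun g h => ?_⟩
        have hgroup : c' (g, h) / (g • x h / x (g * h) * x g) =
            (c' (g, h) * x (g * h)) / (uSmul φ g (x h) * x g) := by
          rw [div_mul_eq_mul_div, div_div_eq_mul_div]; rfl
        rw [hgroup, div_mem_unitFil_iff, pow_one, Units.val_mul, Units.val_mul, coe_uSmul]
        exact hx g h
      · exact graded2 φ I hI hsep hcomp b hb j c' hc' hc'j)
    c hc (fun p => unitFil_zero I _)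
  exact ⟨x, hx⟩

end Main

end Fermat.Agent.S55.G.SIndH237.H758
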