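import Fermat.Agent.S55.G.WA894.ZS

/-!
# S55 / layer G / leaf G-SIND:UCT (helper758), part 7: from `ν`-adic to `rad(ν)`-adic

`R` is `ν`-adically complete and separated and `R ⧸ (ν)` is finite.  Then `R` is separated and
complete for the `I`-adic filtration, `I = rad(ν)` (elementary forms `hsep`, `hcomp` used by
`uct_ring`), `R ⧸ I` is finite and reduced.
-/

set_option autoImplicit false
set_option linter.style.haveILetI false
set_option linter.unusedSectionVars false

namespace Fermat.Agent.S55.G.SIndH237.H758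

section Adic

variable {R : Type} [CommRing R] (ν : R)

/-- the radical of `(ν)` -/
def radNu : Ideal R := (Ideal.span {ν}).radical

lemma span_le_radNu : Ideal.span {ν} ≤ radNu ν := Ideal.le_radical

lemma nu_mem_radNu : ν ∈ radNu ν := span_le_radNu ν (Ideal.subset_span rfl)

instance isReduced_quot_radNu : IsReduced (R ⧸ radNu ν) :=
  (Ideal.isRadical_iff_quotient_reduced _).1 (Ideal.radical_isRadical _)

instance finite_quot_radNu [Finite (R ⧸ Ideal.span {ν})] : Finite (R ⧸ radNu ν) :=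
  Finite.of_surjective (Ideal.Quotient.factor (span_le_radNu ν))
    (Ideal.Quotient.factor_surjective (span_le_radNu ν))

variable [Finite (R ⧸ Ideal.span {ν})]

/-- a power of `rad(ν)` lies in `(ν)` -/
lemma exists_radNu_pow_le : ∃ e : ℕ, 0 < e ∧ radNu ν ^ e ≤ Ideal.span {ν} := by
  haveI : IsArtinianRing (R ⧸ Ideal.span {ν}) := isArtinian_of_finite
  obtain ⟨e, he⟩ := IsArtinianRing.isNilpotent_nilradical (R := R ⧸ Ideal.span {ν})
  have h1 : (radNu ν).map (Ideal.Quotient.mk (Ideal.span {ν})) ≤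
      nilradical (R ⧸ Ideal.span {ν}) := by
    rw [Ideal.map_le_iff_le_comap]
    intro x hx
    obtain ⟨k, hk⟩ := hx
    rw [Ideal.mem_comap, mem_nilradical]
    exact ⟨k, by rw [← map_pow]; exact Ideal.Quotient.eq_zero_iff_mem.2 hk⟩
  refine ⟨e + 1, Nat.succ_pos e, ?_⟩
  intro x hx
  have h2 : Ideal.Quotient.mk (Ideal.span {ν}) x ∈
      ((radNu ν).map (Ideal.Quotient.mk (Ideal.span {ν}))) ^ (e + 1) := by
    rw [← Ideal.map_pow]
    exact Ideal.mem_map_of_mem _ hx
  have h3 : ((radNu ν).map (Ideal.Quotient.mk (Ideal.span {ν}))) ^ (e + 1) ≤ ⊥ := by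
    calc ((radNu ν).map (Ideal.Quotient.mk (Ideal.span {ν}))) ^ (e + 1)
        ≤ (nilradical (R ⧸ Ideal.span {ν})) ^ (e + 1) := Ideal.pow_right_mono h1 _
      _ ≤ (nilradical (R ⧸ Ideal.span {ν})) ^ e := Ideal.pow_le_pow_right (Nat.le_succ e)
      _ = ⊥ := by rw [he]; rfl
  exact Ideal.Quotient.eq_zero_iff_mem.1 (by simpa using h3 h2)

lemma mem_radNu_pow_mul {e : ℕ} (he : radNu ν ^ e ≤ Ideal.span {ν}) (j : ℕ) {x : R}
    (hx : x ∈ radNu ν ^ (e * j)) : ν ^ j ∣ x := by
  rw [pow_mul] at hx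
  have h1 : (radNu ν ^ e) ^ j ≤ Ideal.span {ν} ^ j := Ideal.pow_right_mono he j
  have h2 := h1 hx
  rw [Ideal.span_singleton_pow] at h2
  exact Ideal.mem_span_singleton.1 h2

lemma pow_dvd_mem_radNu_pow (j : ℕ) {x : R} (hx : ν ^ j ∣ x) : x ∈ radNu ν ^ j := by
  obtain ⟨y, rfl⟩ := hx
  exact Ideal.mul_mem_right _ _ (Ideal.pow_mem_pow (nu_mem_radNu ν) j)

variable [IsAdicComplete (Ideal.span {ν}) R]

/-- separatedness for `rad(ν)` -/
theorem radNu_sep (x : R) (hx : ∀ j, x ∈ radNu ν ^ j) : x = 0 := by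
  obtain ⟨e, -, he⟩ := exists_radNu_pow_le ν
  exact WA894.eq_zero_of_forall_pow_dvd' ν fun n => mem_radNu_pow_mul ν he n (hx _)

/-- completeness for `rad(ν)` -/
theorem radNu_comp (x : ℕ → R) (hx : ∀ j, x (j + 1) - x j ∈ radNu ν ^ j) :
    ∃ s, ∀ j, s - x j ∈ radNu ν ^ j := by
  obtain ⟨e, hepos, he⟩ := exists_radNu_pow_le ν
  -- telescoping
  have htel : ∀ m k, x (m + k) - x m ∈ radNu ν ^ m := by
    intro m k
    induction k with
    | zero => rw [add_zero, sub_self]; exact (radNu ν ^ m).zero_mem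
    | succ k ih =>
      have h1 : x (m + (k + 1)) - x m = (x (m + k + 1) - x (m + k)) + (x (m + k) - x m) := by
        rw [← add_assoc]; ring
      rw [h1]
      exact (radNu ν ^ m).add_mem (Ideal.pow_le_pow_right (Nat.le_add_right m k) (hx _)) ih
  have htel' : ∀ m n, m ≤ n → x n - x m ∈ radNu ν ^ m := by
    intro m n hmn
    obtain ⟨k, rfl⟩ := Nat.exists_eq_add_of_le hmn
    exact htel m k
  obtain ⟨s, hs⟩ := WA894.exists_limit_of_cauchy ν (fun m => x (e * m)) (fun m n hmn => by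
    have h1 : x (e * n) - x (e * m) ∈ radNu ν ^ (e * m) :=
      htel' _ _ (Nat.mul_le_mul_left e hmn)
    have h2 := mem_radNu_pow_mul ν he m h1
    have h3 : x (e * m) - x (e * n) = -(x (e * n) - x (e * m)) := by ring
    show ν ^ m ∣ x (e * m) - x (e * n)
    rw [h3]
    exact (dvd_neg).2 h2)
  refine ⟨s, fun j => ?_⟩
  have h1 : s - x j = -(x (e * j) - s) + (x (e * j) - x j) := by ring
  rw [h1]
  refine (radNu ν ^ j).add_mem ((radNu ν ^ j).neg_mem (pow_dvd_mem_radNu_pow ν j (hs j))) ?_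
  exact htel' _ _ (Nat.le_mul_of_pos_left j hepos)

end Adic

end Fermat.Agent.S55.G.SIndH237.H758
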