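import Fermat.Agent.S55.G.SIndH237.UctH758.Abs
import Fermat.Agent.S55.Local.H542.FF2Final

/-!
# S55 / layer G / leaf G-SIND:UCT (helper758), part 2: finite fields

A group `D` acting FAITHFULLY on a finite field `l` by `ψ : D →* (l ≃+* l)`:
`H¹(D, lˣ) = 0` (Hilbert 90) and `H²(D, lˣ) = 0` (`Local.MulH2FiniteFieldStatement`),
in cocycle form (`IsCoc1 ψ c → IsCob1 ψ c`, `IsCoc2 ψ c → IsCob2 ψ c`).
-/

set_option autoImplicit false
set_option linter.style.haveILetI false

namespace Fermat.Agent.S55.G.SIndH237.H758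

open groupCohomology

section FF

variable {D l : Type} [Group D] [Field l] [Finite l] (ψ : D →* (l ≃+* l))
  (hψ : Function.Injective ψ)

include hψ in
omit [Finite l] in
lemma faithful_of_injective :
    letI : MulSemiringAction D l := MulSemiringAction.compHom l ψ
    FaithfulSMul D l := by
  letI : MulSemiringAction D l := MulSemiringAction.compHom l ψ
  exact ⟨fun {_ _} h => hψ (RingEquiv.ext h)⟩

include hψ in
lemma finite_of_injective_ringAut : Finite D :=
  Finite.of_injective (fun d => ((ψ d : l ≃+* l) : l → l))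
    (fun _ _ h => hψ (RingEquiv.ext (congrFun h)))

include hψ in
/-- Hilbert 90 for a faithful action on a finite field. -/
theorem ff_h1 (c : D → lˣ) (hc : IsCoc1 ψ c) : IsCob1 ψ c := by
  haveI : Finite D := finite_of_injective_ringAut ψ hψ
  letI : MulSemiringAction D l := MulSemiringAction.compHom l ψ
  haveI : FaithfulSMul D l := faithful_of_injective ψ hψ
  let e := FixedPoints.toAlgAutMulEquiv D l
  have he : ∀ (d : D) (x : l), e d x = ψ d x := fun d x => rfl
  let c' : (l ≃ₐ[FixedPoints.subfield D l] l) → lˣ := fun σ => c (e.symm σ)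
  have hsm : ∀ (σ : l ≃ₐ[FixedPoints.subfield D l] l) (u : lˣ),
      σ • u = uSmul ψ (e.symm σ) u := by
    intro σ u
    apply Units.ext
    rw [AlgEquiv.smul_units_def, coe_uSmul, ← he, MulEquiv.apply_symm_apply]
    rfl
  have hc' : IsMulCocycle₁ c' := by
    intro σ τ
    show c (e.symm (σ * τ)) = σ • c (e.symm τ) * c (e.symm σ)
    rw [map_mul, hc, hsm]
  obtain ⟨m, hm⟩ := isMulCoboundary₁_of_isMulCocycle₁_of_aut_to_units c' hc'
  refine ⟨m, fun g => ?_⟩
  have h1 := hm (e g)
  rw [hsm] at h1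
  simpa [c'] using h1

include hψ in
/-- `H²(D, lˣ) = 0` for a faithful action on a finite field. -/
theorem ff_h2 (c : D × D → lˣ) (hc : IsCoc2 ψ c) : IsCob2 ψ c := by
  haveI : Finite D := finite_of_injective_ringAut ψ hψ
  letI : MulSemiringAction D l := MulSemiringAction.compHom l ψ
  haveI : FaithfulSMul D l := faithful_of_injective ψ hψ
  let e := FixedPoints.toAlgAutMulEquiv D l
  have he : ∀ (d : D) (x : l), e d x = ψ d x := fun d x => rfl
  let c' : (l ≃ₐ[FixedPoints.subfield D l] l) × (l ≃ₐ[FixedPoints.subfield D l] l) → lˣ :=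
    fun p => c (e.symm p.1, e.symm p.2)
  have hsm : ∀ (σ : l ≃ₐ[FixedPoints.subfield D l] l) (u : lˣ),
      σ • u = uSmul ψ (e.symm σ) u := by
    intro σ u
    apply Units.ext
    rw [AlgEquiv.smul_units_def, coe_uSmul, ← he, MulEquiv.apply_symm_apply]
    rfl
  have hc' : IsMulCocycle₂ c' := by
    intro σ τ υ
    show c (e.symm (σ * τ), e.symm υ) * c (e.symm σ, e.symm τ) =
      σ • c (e.symm τ, e.symm υ) * c (e.symm σ, e.symm (τ * υ))
    rw [map_mul, map_mul, hc, hsm]
  obtain ⟨x, hx⟩ := Fermat.Agent.S55.Local.H542.mulH2FiniteField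
    (FixedPoints.subfield D l) l c' hc'
  refine ⟨fun g => x (e g), fun g h => ?_⟩
  have h1 := hx (e g) (e h)
  rw [hsm, ← map_mul] at h1
  simpa [c'] using h1

end FF

end Fermat.Agent.S55.G.SIndH237.H758
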