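import Fermat.Agent.S55.G.SIndH237.Spec
import Fermat.Agent.S55.G.WA894.Approx

/-!
# S55 / layer G / leaf G-SIND:UCT (helper758), part 6: the ring `RS T L`

The integral model `RS T L ⊂ L ⊗ ℚ_T` of `SIndH237/Spec.lean` is isomorphic (via helper894's
`WA894.lat`) to the lattice ring `ℤ_T ⊗_ℤ 𝓞 L`.  Consequences (`ν = ∏_{q ∈ T} q`):

* `isAdicComplete_RS` : `RS T L` is `ν`-adically complete and separated;
* (`Inst.lean`: `finite_RS_quot` : `RS T L ⧸ (ν)` is finite;)
* `exists_int_approx_RS` : `𝓞 L` is dense in `RS T L`.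
-/

set_option autoImplicit false
set_option linter.style.haveILetI false
set_option linter.unusedSectionVars false

open scoped NumberField TensorProduct

noncomputable section

namespace Fermat.Agent.S55.G.SIndH237.H758

open Fermat.Agent.S55.G Fermat.Agent.S55.G.SIndH237

variable (T : Finset Nat.Primes) (L : Type) [Field L] [NumberField L]

/-! ### `lat` is injective -/

lemma zsToQS_injective : Function.Injective (WA894.zsToQS T) := by
  intro z z' h
  funext q
  have h1 := congrFun (congrArg (QS.toPi T) h) q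
  rw [WA894.toPi_zsToQS, WA894.toPi_zsToQS] at h1
  exact Subtype.ext h1

/-- The coordinates of `lat x` are the images of the coordinates of `x`. -/
lemma repr_lat (x : WA894.RS T L) (i : Module.Free.ChooseBasisIndex ℤ (𝓞 L)) :
    (Algebra.TensorProduct.basis (QS T) (NumberField.integralBasis L)).repr
        (Algebra.TensorProduct.comm ℚ L (QS T) (WA894.lat T L x)) i =
      WA894.zsToQS T
        ((Algebra.TensorProduct.basis (WA894.ZS T) (NumberField.RingOfIntegers.basis L)).repr
          x i) := by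
  induction x using TensorProduct.induction_on with
  | zero => simp
  | tmul z a =>
    rw [WA894.lat_tmul, Algebra.TensorProduct.comm_tmul, Algebra.TensorProduct.basis_repr_tmul,
      Algebra.TensorProduct.basis_repr_tmul, Finsupp.smul_apply, Finsupp.smul_apply,
      Finsupp.mapRange_apply, Finsupp.mapRange_apply, NumberField.integralBasis_repr_apply,
      smul_eq_mul, smul_eq_mul, map_mul]
    congr 1
  | add x y hx hy =>
    rw [map_add, map_add, map_add, Finsupp.add_apply, hx, hy, map_add, Finsupp.add_apply,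
      map_add]

lemma lat_injective : Function.Injective (WA894.lat T L) := by
  rw [injective_iff_map_eq_zero]
  intro x hx
  apply (Algebra.TensorProduct.basis (WA894.ZS T)
    (NumberField.RingOfIntegers.basis L)).repr.injective
  refine Finsupp.ext fun i => ?_
  rw [map_zero, Finsupp.zero_apply]
  apply zsToQS_injective T
  rw [← repr_lat, hx, map_zero, map_zero, map_zero, Finsupp.zero_apply]

/-! ### the range of `lat` is `RS T L` -/

lemma zsToQS_mem_ZS (z : WA894.ZS T) : WA894.zsToQS T z ∈ ZS T := by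
  intro q
  rw [WA894.toPi_zsToQS]
  exact (z q).2

lemma exists_zsToQS_eq {c : QS T} (hc : c ∈ ZS T) : ∃ z : WA894.ZS T, WA894.zsToQS T z = c := by
  refine ⟨fun q => ⟨QS.toPi T c q, hc q⟩, ?_⟩
  apply (QS.toPi T).injective
  funext q
  rfl

lemma lat_mem_RS (x : WA894.RS T L) : WA894.lat T L x ∈ RS T L := by
  induction x using TensorProduct.induction_on with
  | zero => rw [map_zero]; exact (RS T L).zero_mem
  | tmul z a =>
    have h : WA894.lat T L (z ⊗ₜ[ℤ] a) =
        ((a : L) ⊗ₜ[ℚ] (1 : QS T)) * ((1 : L) ⊗ₜ[ℚ] WA894.zsToQS T z) := by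
      rw [WA894.lat_tmul, Algebra.TensorProduct.tmul_mul_tmul, mul_one, one_mul]
    rw [h]
    exact (RS T L).mul_mem (Subring.subset_closure (Or.inl ⟨a, rfl⟩))
      (Subring.subset_closure (Or.inr ⟨_, zsToQS_mem_ZS T z, rfl⟩))
  | add x y hx hy => rw [map_add]; exact (RS T L).add_mem hx hy

lemma exists_lat_eq_of_mem_RS {y : AS T L} (hy : y ∈ RS T L) :
    ∃ x : WA894.RS T L, WA894.lat T L x = y := by
  induction hy using Subring.closure_induction with
  | mem y hy =>
    rcases hy with ⟨a, rfl⟩ | ⟨c, hc, rfl⟩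
    · exact ⟨(1 : WA894.ZS T) ⊗ₜ[ℤ] a, by rw [WA894.lat_tmul, map_one]⟩
    · obtain ⟨z, rfl⟩ := exists_zsToQS_eq T hc
      exact ⟨z ⊗ₜ[ℤ] (1 : 𝓞 L), by rw [WA894.lat_tmul, map_one]⟩
  | zero => exact ⟨0, map_zero _⟩
  | one => exact ⟨1, map_one _⟩
  | add x y _ _ hx hy =>
    obtain ⟨x', rfl⟩ := hx
    obtain ⟨y', rfl⟩ := hy
    exact ⟨x' + y', map_add _ _ _⟩
  | neg x _ hx =>
    obtain ⟨x', rfl⟩ := hx
    exact ⟨-x', map_neg _ _⟩
  | mul x y _ _ hx hy =>
    obtain ⟨x', rfl⟩ := hx
    obtain ⟨y', rfl⟩ := hy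
    exact ⟨x' * y', map_mul _ _ _⟩

/-- `lat` as a ring homomorphism onto `RS T L`. -/
def latRS : WA894.RS T L →+* RS T L :=
  ((WA894.lat T L : WA894.RS T L →ₐ[ℤ] AS T L) : WA894.RS T L →+* AS T L).codRestrict
    (RS T L) (lat_mem_RS T L)

@[simp] lemma coe_latRS (x : WA894.RS T L) : ((latRS T L x : RS T L) : AS T L) = WA894.lat T L x :=
  rfl

lemma latRS_bijective : Function.Bijective (latRS T L) := by
  constructor
  · intro x y h
    exact lat_injective T L (congrArg Subtype.val h)
  · intro y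
    obtain ⟨x, hx⟩ := exists_lat_eq_of_mem_RS T L y.2
    exact ⟨x, Subtype.ext hx⟩

/-- The ring isomorphism `ℤ_T ⊗ 𝓞 L ≃ RS T L`. -/
def latEquiv : WA894.RS T L ≃+* RS T L := RingEquiv.ofBijective (latRS T L) (latRS_bijective T L)

@[simp] lemma latEquiv_apply (x : WA894.RS T L) : latEquiv T L x = latRS T L x := rfl

/-! ### completeness, density, finiteness -/

/-- `ν = ∏_{q ∈ T} q` in `RS T L`. -/
def nu : RS T L := ((WA894.prodS T : ℕ) : RS T L)

lemma latEquiv_natCast (n : ℕ) : latEquiv T L (n : WA894.RS T L) = (n : RS T L) :=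
  map_natCast (latEquiv T L) n

/-- `RS T L` is `ν`-adically complete and separated. -/
theorem isAdicComplete_RS : IsAdicComplete (Ideal.span {nu T L}) (RS T L) := by
  have h := (IsAdicComplete.congr_ringEquiv
    (Ideal.span {((WA894.prodS T : ℕ) : WA894.RS T L)}) (latEquiv T L)).2
    (WA894.isAdicComplete_RS T L)
  have hI : Ideal.map (latEquiv T L) (Ideal.span {((WA894.prodS T : ℕ) : WA894.RS T L)}) =
      Ideal.span {nu T L} := by
    rw [Ideal.map_span, Set.image_singleton, latEquiv_natCast]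
    rfl
  rwa [hI] at h

/-- `𝓞 L` is dense in `RS T L`. -/
theorem exists_int_approx_RS (M : ℕ) (r : RS T L) :
    ∃ (a : 𝓞 L) (t : RS T L),
      (r : AS T L) = (a : L) ⊗ₜ[ℚ] (1 : QS T) + ((nu T L ^ M * t : RS T L) : AS T L) := by
  obtain ⟨x, rfl⟩ := (latRS_bijective T L).2 r
  obtain ⟨a, t, hx⟩ := WA894.exists_int_approx (S := T) (K := L) M x
  refine ⟨a, latRS T L t, ?_⟩
  rw [coe_latRS, hx, map_add, WA894.lat_tmul, map_one, map_mul, map_pow, map_natCast]
  rfl

end Fermat.Agent.S55.G.SIndH237.H758
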