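import Fermat.Agent.S55.G.SIndH237.UctH758.Lift
import Fermat.Agent.S55.G.SIndH237.UctH758.Ring
import Fermat.Agent.S55.G.SIndH237.UctH758.Adic

/-!
# S55 / layer G / leaf G-SIND:UCT (helper758), part 8: instantiation for `RS T L`

`uct_RS` : if `L/L^G` is unramified above `T`, then for every subgroup `H ≤ G` every
multiplicative 1-cocycle and 2-cocycle of `H` with values in `(RS T L)ˣ` is a coboundary.
-/

set_option autoImplicit false
set_option linter.style.haveILetI false
set_option linter.unusedSectionVars false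

open scoped NumberField TensorProduct

noncomputable section

namespace Fermat.Agent.S55.G.SIndH237.H758

open Fermat.Agent.S55.G Fermat.Agent.S55.G.SIndH237

variable (T : Finset Nat.Primes) (G L : Type) [Group G] [Field L] [NumberField L]
  [MulSemiringAction G L]

lemma asAut_inv_apply (g : G) (x : AS T L) : asAut T G L g⁻¹ (asAut T G L g x) = x := by
  rw [← AlgEquiv.mul_apply, ← map_mul, inv_mul_cancel, map_one, AlgEquiv.one_apply]

lemma asAut_apply_inv (g : G) (x : AS T L) : asAut T G L g (asAut T G L g⁻¹ x) = x := by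
  rw [← AlgEquiv.mul_apply, ← map_mul, mul_inv_cancel, map_one, AlgEquiv.one_apply]

/-- The action of `G` on the integral model `RS T L`. -/
def rsAut : G →* (RS T L ≃+* RS T L) where
  toFun g :=
    { toFun := fun x => ⟨asAut T G L g x, asAut_mem_RS T G L g x.2⟩
      invFun := fun x => ⟨asAut T G L g⁻¹ x, asAut_mem_RS T G L g⁻¹ x.2⟩
      left_inv := fun x => Subtype.ext (asAut_inv_apply T G L g x)
      right_inv := fun x => Subtype.ext (asAut_apply_inv T G L g x)
      map_mul' := fun x y => Subtype.ext (map_mul (asAut T G L g) (x : AS T L) y)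
      map_add' := fun x y => Subtype.ext (map_add (asAut T G L g) (x : AS T L) y) }
  map_one' := by
    ext x
    show asAut T G L 1 (x : AS T L) = x
    rw [map_one, AlgEquiv.one_apply]
  map_mul' g h := by
    ext x
    show asAut T G L (g * h) (x : AS T L) = asAut T G L g (asAut T G L h x)
    rw [map_mul, AlgEquiv.mul_apply]

@[simp] lemma coe_rsAut_apply (g : G) (x : RS T L) :
    ((rsAut T G L g x : RS T L) : AS T L) = asAut T G L g x := rfl

/-- The inclusion `𝓞 L → RS T L`, `a ↦ a ⊗ 1`. -/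
def inclRS : 𝓞 L →+* RS T L :=
  (((asDiag T L : L →ₐ[ℚ] AS T L) : L →+* AS T L).comp (algebraMap (𝓞 L) L)).codRestrict
    (RS T L) (fun a => Subring.subset_closure (Or.inl ⟨a, rfl⟩))

@[simp] lemma coe_inclRS (a : 𝓞 L) : ((inclRS T L a : RS T L) : AS T L) = (a : L) ⊗ₜ[ℚ] (1 : QS T) :=
  rfl

lemma rsAut_inclRS (g : G) (a : 𝓞 L) : rsAut T G L g (inclRS T L a) = inclRS T L (g • a) := by
  apply Subtype.ext
  rw [coe_rsAut_apply, coe_inclRS, coe_inclRS, asAut_tmul]
  rfl

lemma inclRS_natCast (n : ℕ) : inclRS T L (n : 𝓞 L) = (n : RS T L) := map_natCast _ n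

/-! ### finiteness of `RS ⧸ (ν)` -/

instance finite_RS_quot : Finite (RS T L ⧸ Ideal.span {nu T L}) := by
  have hne : Ideal.span {((WA894.prodS T : ℕ) : 𝓞 L)} ≠ ⊥ := by
    rw [Ne, Ideal.span_singleton_eq_bot]
    exact_mod_cast WA894.prodS_ne_zero T
  haveI : Finite (𝓞 L ⧸ Ideal.span {((WA894.prodS T : ℕ) : 𝓞 L)}) :=
    Ideal.finiteQuotientOfFreeOfNeBot _ hne
  let f : 𝓞 L →+* RS T L ⧸ Ideal.span {nu T L} :=
    (Ideal.Quotient.mk (Ideal.span {nu T L})).comp (inclRS T L)
  have hf : ∀ a ∈ Ideal.span {((WA894.prodS T : ℕ) : 𝓞 L)}, f a = 0 := by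
    intro a ha
    obtain ⟨c, rfl⟩ := Ideal.mem_span_singleton.1 ha
    show Ideal.Quotient.mk _ (inclRS T L (((WA894.prodS T : ℕ) : 𝓞 L) * c)) = 0
    rw [map_mul, inclRS_natCast, Ideal.Quotient.eq_zero_iff_mem]
    exact Ideal.mul_mem_right _ _ (Ideal.subset_span rfl)
  refine Finite.of_surjective (Ideal.Quotient.lift _ f hf) ?_
  intro y
  obtain ⟨r, rfl⟩ := Ideal.Quotient.mk_surjective y
  obtain ⟨a, t, hr⟩ := exists_int_approx_RS T L 1 r
  refine ⟨Ideal.Quotient.mk _ a, ?_⟩
  rw [Ideal.Quotient.lift_mk]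
  show Ideal.Quotient.mk _ (inclRS T L a) = Ideal.Quotient.mk _ r
  rw [Ideal.Quotient.eq]
  have h1 : inclRS T L a - r = nu T L * (-t) := by
    apply Subtype.ext
    have h2 : ((inclRS T L a - r : RS T L) : AS T L) =
        ((inclRS T L a : RS T L) : AS T L) - (r : AS T L) := rfl
    have h3 : ((nu T L * (-t) : RS T L) : AS T L) = -((nu T L ^ 1 * t : RS T L) : AS T L) := by
      rw [pow_one, mul_neg]; rfl
    rw [h2, h3, hr, coe_inclRS]
    ring
  rw [h1]
  exact Ideal.mul_mem_right _ _ (Ideal.subset_span rfl)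

/-! ### stability and unramifiedness -/

lemma rsAut_nu (g : G) : rsAut T G L g (nu T L) = nu T L := map_natCast _ _

lemma rsAut_mem_radNu (g : G) (x : RS T L) (hx : x ∈ radNu (nu T L)) :
    rsAut T G L g x ∈ radNu (nu T L) := by
  obtain ⟨k, hk⟩ := hx
  obtain ⟨y, hy⟩ := Ideal.mem_span_singleton.1 hk
  refine ⟨k, ?_⟩
  rw [← map_pow, hy, map_mul, rsAut_nu]
  exact Ideal.mul_mem_right _ _ (Ideal.subset_span rfl)

variable {T G L} in
lemma unramOver_of_isUnramAbove [FaithfulSMul G L] (hun : IsUnramAbove T G L) (H : Subgroup G) :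
    UnramOver ((rsAut T G L).comp H.subtype) (radNu (nu T L)) := by
  intro 𝔪 h𝔪 hle g hg
  haveI : 𝔪.IsPrime := h𝔪.isPrime
  -- the prime of `𝓞 L` below `𝔪`
  have hprime : (𝔪.comap (inclRS T L)).IsPrime := Ideal.comap_isPrime _ _
  have hnmem : ((WA894.prodS T : ℕ) : 𝓞 L) ∈ 𝔪.comap (inclRS T L) := by
    rw [Ideal.mem_comap, inclRS_natCast]
    exact hle (nu_mem_radNu (nu T L))
  have hne : 𝔪.comap (inclRS T L) ≠ ⊥ := by
    intro h
    rw [h, Ideal.mem_bot] at hnmem
    exact WA894.prodS_ne_zero T (by exact_mod_cast hnmem)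
  let w : IsDedekindDomain.HeightOneSpectrum (𝓞 L) := ⟨𝔪.comap (inclRS T L), hprime, hne⟩
  have hab : IsAbove T L w := by
    have h1 : ((WA894.prodS T : ℕ) : 𝓞 L) = ∏ q ∈ T, ((q : ℕ) : 𝓞 L) := by
      rw [WA894.prodS, Nat.cast_prod]
    rw [h1] at hnmem
    obtain ⟨q, hq, hqm⟩ := (Ideal.IsPrime.prod_mem_iff (hp := hprime)).1 hnmem
    exact ⟨q, hq, hqm⟩
  have hfix : ∀ x : L, (g : G) • x = x := by
    refine hun w hab (g : G) fun x => ?_
    show (g : G) • x - x ∈ 𝔪.comap (inclRS T L)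
    rw [Ideal.mem_comap, map_sub, ← rsAut_inclRS]
    exact hg (inclRS T L x)
  have h1 : (g : G) = 1 := FaithfulSMul.eq_of_smul_eq_smul (α := L) fun x => by
    rw [hfix x, one_smul]
  exact Subtype.ext h1

/-- **UCT for `RS T L`, cocycle form.** -/
theorem uct_RS [Finite G] [FaithfulSMul G L] (hun : IsUnramAbove T G L) (H : Subgroup G) :
    (∀ c : H → (RS T L)ˣ, IsCoc1 ((rsAut T G L).comp H.subtype) c →
      IsCob1 ((rsAut T G L).comp H.subtype) c) ∧
    (∀ c : H × H → (RS T L)ˣ, IsCoc2 ((rsAut T G L).comp H.subtype) c →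
      IsCob2 ((rsAut T G L).comp H.subtype) c) := by
  haveI : Fintype H := Fintype.ofFinite H
  haveI : IsAdicComplete (Ideal.span {nu T L}) (RS T L) := isAdicComplete_RS T L
  exact uct_ring ((rsAut T G L).comp H.subtype) (radNu (nu T L))
    (fun h x hx => rsAut_mem_radNu T G L (h : G) x hx)
    (radNu_sep (nu T L)) (radNu_comp (nu T L))
    (unramOver_of_isUnramAbove hun H)

end Fermat.Agent.S55.G.SIndH237.H758
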