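import Fermat.Agent.S55.G.SIndH237.UctH758.Trace

/-!
# S55 / layer G / leaf G-SIND:UCT (helper758), part 5: the ring-theoretic UCT

`R` a commutative ring with an action `φ` of a finite group `H`, `I` an `H`-stable ideal,
`R` `I`-adically separated and complete, `R ⧸ I` finite and reduced, and `H` unramified at
every maximal ideal containing `I`.  Then `H¹(H, Rˣ) = H²(H, Rˣ) = 0` in cocycle form
(`uct_ring`).
-/

set_option autoImplicit false
set_option linter.style.haveILetI false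
set_option linter.unusedSectionVars false

namespace Fermat.Agent.S55.G.SIndH237.H758

section Lift

variable {H R : Type} [Group H] [CommRing R] (φ : H →* (R ≃+* R)) (I : Ideal R)
  (hI : ∀ (h : H) (x : R), x ∈ I → φ h x ∈ I)

include hI in
lemma mem_decomp_of_stable (h : H) : h ∈ LocH897.decomp φ I := by
  rw [LocH897.mem_decomp]
  intro x
  refine ⟨fun hx => ?_, fun hx => hI h x hx⟩
  have := hI h⁻¹ _ hx
  rwa [LocH897.apply_inv_apply] at this

/-- `H → decomp φ I` for a stable ideal. -/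
def toDecomp : H →* LocH897.decomp φ I where
  toFun h := ⟨h, mem_decomp_of_stable φ I hI h⟩
  map_one' := rfl
  map_mul' _ _ := rfl

/-- The induced action on `R ⧸ I`. -/
def quotAct : H →* ((R ⧸ I) ≃+* (R ⧸ I)) := (LocH897.resAut φ I).comp (toDecomp φ I hI)

@[simp] lemma quotAct_mk (h : H) (x : R) :
    quotAct φ I hI h (Ideal.Quotient.mk I x) = Ideal.Quotient.mk I (φ h x) :=
  LocH897.resAut_mk φ I (toDecomp φ I hI h) x

variable (hsep : ∀ x : R, (∀ j, x ∈ I ^ j) → x = 0)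
  (hcomp : ∀ x : ℕ → R, (∀ j, x (j + 1) - x j ∈ I ^ j) → ∃ s, ∀ j, s - x j ∈ I ^ j)

include hsep hcomp in
lemma exists_unit_lift (u : (R ⧸ I)ˣ) : ∃ m : Rˣ, Ideal.Quotient.mk I (m : R) = u := by
  obtain ⟨x, hx⟩ := Ideal.Quotient.mk_surjective (u : R ⧸ I)
  obtain ⟨y, hy⟩ := Ideal.Quotient.mk_surjective ((u⁻¹ : (R ⧸ I)ˣ) : R ⧸ I)
  have h1 : x * y - 1 ∈ I := by
    rw [← Ideal.Quotient.eq_zero_iff_mem, map_sub, map_mul, map_one, hx, hy, Units.mul_inv,
      sub_self]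
  have h2 : IsUnit (x * y) := by
    have := isUnit_one_add I hsep hcomp h1
    rwa [add_sub_cancel] at this
  have h3 : IsUnit x := isUnit_of_mul_isUnit_left h2
  exact ⟨h3.unit, hx⟩

/-- unramifiedness at the maximal ideals containing `I`, in terms of `R` -/
def UnramOver : Prop :=
  ∀ 𝔪 : Ideal R, 𝔪.IsMaximal → I ≤ 𝔪 → ∀ g : H, (∀ x : R, φ g x - x ∈ 𝔪) → g = 1

include hI in
lemma unram_quotAct (hun : UnramOver φ I) : Unram (quotAct φ I hI) := by
  intro 𝔫 h𝔫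
  rw [injective_iff_map_eq_one]
  intro d hd
  have h𝔪 : (𝔫.comap (Ideal.Quotient.mk I)).IsMaximal :=
    Ideal.comap_isMaximal_of_surjective _ Ideal.Quotient.mk_surjective
  have hle : I ≤ 𝔫.comap (Ideal.Quotient.mk I) := by
    intro x hx
    rw [Ideal.mem_comap, Ideal.Quotient.eq_zero_iff_mem.2 hx]
    exact 𝔫.zero_mem
  have h1 : (d : H) = 1 := by
    refine hun _ h𝔪 hle d fun x => ?_
    rw [Ideal.mem_comap, map_sub, ← quotAct_mk φ I hI]
    have h2 := congrArg (fun e : (R ⧸ I) ⧸ 𝔫 ≃+* (R ⧸ I) ⧸ 𝔫 =>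
      e (Ideal.Quotient.mk 𝔫 (Ideal.Quotient.mk I x))) hd
    simp only [LocH897.resAut_mk, RingAut.one_apply] at h2
    exact Ideal.Quotient.eq.1 h2
  exact Subtype.ext h1

variable [Fintype H] [Finite (R ⧸ I)] [IsReduced (R ⧸ I)]

include hI hsep hcomp in
/-- a trace-one element -/
lemma exists_trace_one (hun : UnramOver φ I) : ∃ b : R, ∑ h : H, φ h b = 1 := by
  obtain ⟨b', hb'⟩ := exists_trace_isUnit (quotAct φ I hI) (unram_quotAct φ I hI hun)
  obtain ⟨b₀, rfl⟩ := Ideal.Quotient.mk_surjective b'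
  obtain ⟨t', ht'⟩ := hb'
  obtain ⟨m, hm⟩ := exists_unit_lift I hsep hcomp t'
  have ht : Ideal.Quotient.mk I (∑ h : H, φ h b₀) = t' := by
    rw [map_sum, ht']
    exact Finset.sum_congr rfl fun h _ => (quotAct_mk φ I hI h b₀).symm
  have hu : IsUnit (∑ h : H, φ h b₀) :=
    isUnit_of_sub_mem I hsep hcomp m (Ideal.Quotient.eq.1 (ht.trans hm.symm))
  obtain ⟨t, htt⟩ := hu
  have hinv : ∀ g : H, φ g (t : R) = t := by
    intro g
    rw [htt, map_sum, ← sum_phi_mul_left g (fun h => φ h b₀)]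
    exact Finset.sum_congr rfl fun h _ => (phi_mul_apply φ g h b₀).symm
  have hinv' : ∀ g : H, φ g ((t⁻¹ : Rˣ) : R) = ((t⁻¹ : Rˣ) : R) := by
    intro g
    have h1 : φ g ((t⁻¹ : Rˣ) : R) * (t : R) = 1 := by
      conv_lhs => rw [← hinv g, ← map_mul]
      rw [Units.inv_mul, map_one]
    calc φ g ((t⁻¹ : Rˣ) : R)
        = φ g ((t⁻¹ : Rˣ) : R) * ((t : R) * ((t⁻¹ : Rˣ) : R)) := by
          rw [Units.mul_inv, mul_one]
      _ = ((t⁻¹ : Rˣ) : R) := by rw [← mul_assoc, h1, one_mul]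
  refine ⟨b₀ * ((t⁻¹ : Rˣ) : R), ?_⟩
  calc ∑ h : H, φ h (b₀ * ((t⁻¹ : Rˣ) : R))
      = ∑ h : H, φ h b₀ * ((t⁻¹ : Rˣ) : R) :=
        Finset.sum_congr rfl fun h _ => by rw [map_mul, hinv']
    _ = (∑ h : H, φ h b₀) * ((t⁻¹ : Rˣ) : R) := (Finset.sum_mul _ _ _).symm
    _ = 1 := by rw [← htt, Units.mul_inv]

include hI hsep hcomp in
lemma step0_h1 (hun : UnramOver φ I) (c : H → Rˣ) (hc : IsCoc1 φ c) :
    ∃ m : Rˣ, ∀ g, (c g : R) * m - φ g m ∈ I := by
  let mkU : Rˣ →* (R ⧸ I)ˣ := Units.map ((Ideal.Quotient.mk I : R →+* R ⧸ I) : R →* R ⧸ I)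
  have hcbar : IsCoc1 (quotAct φ I hI) (fun g => mkU (c g)) := by
    intro g h
    apply Units.ext
    have := congrArg (fun u : Rˣ => Ideal.Quotient.mk I (u : R)) (hc g h)
    simp only [Units.val_mul, coe_uSmul, map_mul] at this
    simp only [Units.val_mul, coe_uSmul]
    rw [show ((mkU (c h) : (R ⧸ I)ˣ) : R ⧸ I) = Ideal.Quotient.mk I (c h : R) from rfl,
      quotAct_mk]
    exact this
  obtain ⟨m', hm'⟩ := residue_h1 (quotAct φ I hI) (unram_quotAct φ I hI hun) _ hcbar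
  obtain ⟨m, hm⟩ := exists_unit_lift I hsep hcomp m'
  refine ⟨m, fun g => ?_⟩
  rw [← Ideal.Quotient.eq_zero_iff_mem, map_sub, map_mul, sub_eq_zero]
  have h1 := congrArg (fun u : (R ⧸ I)ˣ => (u : R ⧸ I)) (eq_mul_of_div_eq (hm' g))
  simp only [Units.val_mul, coe_uSmul] at h1
  rw [← quotAct_mk φ I hI, hm, h1]
  rfl

include hI hsep hcomp in
lemma step0_h2 (hun : UnramOver φ I) (c : H × H → Rˣ) (hc : IsCoc2 φ c) :
    ∃ x : H → Rˣ, ∀ g h, (c (g, h) : R) * x (g * h) - φ g (x h) * x g ∈ I := by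
  let mkU : Rˣ →* (R ⧸ I)ˣ := Units.map ((Ideal.Quotient.mk I : R →+* R ⧸ I) : R →* R ⧸ I)
  have hmkU : ∀ u : Rˣ, ((mkU u : (R ⧸ I)ˣ) : R ⧸ I) = Ideal.Quotient.mk I (u : R) :=
    fun _ => rfl
  have hcbar : IsCoc2 (quotAct φ I hI) (fun p => mkU (c p)) := by
    intro g h j
    apply Units.ext
    have := congrArg (fun u : Rˣ => Ideal.Quotient.mk I (u : R)) (hc g h j)
    simp only [Units.val_mul, coe_uSmul, map_mul] at this
    simp only [Units.val_mul, coe_uSmul, hmkU, quotAct_mk]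
    exact this
  obtain ⟨x', hx'⟩ := residue_h2 (quotAct φ I hI) (unram_quotAct φ I hI hun) _ hcbar
  choose x hx using fun g => exists_unit_lift I hsep hcomp (x' g)
  refine ⟨x, fun g h => ?_⟩
  rw [← Ideal.Quotient.eq_zero_iff_mem, map_sub, map_mul, map_mul, sub_eq_zero]
  have h0 : uSmul (quotAct φ I hI) g (x' h) * x' g = mkU (c (g, h)) * x' (g * h) := by
    have := hx' g h
    rw [div_mul_eq_mul_div, div_eq_iff_eq_mul] at this
    exact this
  have h1 := congrArg (fun u : (R ⧸ I)ˣ => (u : R ⧸ I)) h0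
  simp only [Units.val_mul, coe_uSmul, hmkU] at h1
  rw [← quotAct_mk φ I hI, hx, hx, hx, h1]

include hI hsep hcomp in
/-- **Ring-theoretic UCT.** -/
theorem uct_ring (hun : UnramOver φ I) :
    (∀ c : H → Rˣ, IsCoc1 φ c → IsCob1 φ c) ∧
    (∀ c : H × H → Rˣ, IsCoc2 φ c → IsCob2 φ c) := by
  obtain ⟨b, hb⟩ := exists_trace_one φ I hI hsep hcomp hun
  exact ⟨abs_h1 φ I hI hsep hcomp b hb (step0_h1 φ I hI hsep hcomp hun),
    abs_h2 φ I hI hsep hcomp b hb (step0_h2 φ I hI hsep hcomp hun)⟩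

end Lift

end Fermat.Agent.S55.G.SIndH237.H758
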