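import Fermat.Agent.S55.G.SIndH237.UctH758.Inst

/-!
# S55 / layer G / leaf G-SIND:UCT (helper758): `unitsCohTriv : UnitsCohTrivSpec`

If `L/L^G` is unramified at all primes above `T`, then `H¹(H, U_T(L)) = H²(H, U_T(L)) = 0` for
every subgroup `H ≤ G`.

Route (b) of `coord/S55-G-SIND.md`, with `rad(ν)`, `ν = ∏_{q ∈ T} q`, in place of `𝔔`:
`Abs.lean` (successive approximation with a trace-one element), `FF.lean` (finite fields),
`Residue.lean` (semi-local Shapiro for the finite reduced ring `RS ⧸ rad(ν)`), `Trace.lean`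
(trace-one element), `Lift.lean` (`uct_ring`), `Ring.lean` + `Adic.lean` (completeness of
`RS T L`), `Inst.lean` (`uct_RS`).
-/

set_option autoImplicit false
set_option linter.style.haveILetI false
set_option linter.unusedSectionVars false

open scoped NumberField TensorProduct
open CategoryTheory

noncomputable section

namespace Fermat.Agent.S55.G.SIndH237.H758

open Fermat.Agent.S55.G Fermat.Agent.S55.G.SIndH237

variable (T : Finset Nat.Primes) (G L : Type) [Group G] [Field L] [NumberField L]
  [MulSemiringAction G L]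

/-- the value in `L ⊗ ℚ_T` of an element of `U_T(L)` -/
def utVal (u : (UT T L).toIntSubmodule) : AS T L := (((u : Additive (AS T L)ˣ).toMul : (AS T L)ˣ) : AS T L)

lemma utVal_injective : Function.Injective (utVal T L) := by
  intro u v h
  apply Subtype.ext
  apply Additive.toMul.injective
  exact Units.ext h

lemma utVal_add (u v : (UT T L).toIntSubmodule) : utVal T L (u + v) = utVal T L u * utVal T L v :=
  rfl

lemma utVal_rho (g : G) (u : (UT T L).toIntSubmodule) :
    utVal T L ((URep T G L).ρ g u) = asAut T G L g (utVal T L u) := rfl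

/-- `U_T(L) → (RS T L)ˣ` -/
def toU (u : (UT T L).toIntSubmodule) : (RS T L)ˣ where
  val := ⟨utVal T L u, u.2.1⟩
  inv := ⟨((((u : Additive (AS T L)ˣ).toMul)⁻¹ : (AS T L)ˣ) : AS T L), u.2.2⟩
  val_inv := Subtype.ext (Units.mul_inv _)
  inv_val := Subtype.ext (Units.inv_mul _)

@[simp] lemma coe_toU (u : (UT T L).toIntSubmodule) :
    (((toU T L u : (RS T L)ˣ) : RS T L) : AS T L) = utVal T L u := rfl

/-- `(RS T L)ˣ → U_T(L)` -/
def ofU (m : (RS T L)ˣ) : (UT T L).toIntSubmodule :=
  ⟨Additive.ofMul (Units.map ((RS T L).subtype : RS T L →* AS T L) m), ⟨(m : RS T L).2,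
    ((m⁻¹ : (RS T L)ˣ) : RS T L).2⟩⟩

@[simp] lemma utVal_ofU (m : (RS T L)ˣ) : utVal T L (ofU T L m) = ((m : RS T L) : AS T L) := rfl

lemma ut_sub_eq (a b c : (UT T L).toIntSubmodule)
    (h : utVal T L a = utVal T L c * utVal T L b) : a - b = c := by
  rw [sub_eq_iff_eq_add]
  exact utVal_injective T L h

lemma ut_sub_add_eq (a b c d : (UT T L).toIntSubmodule)
    (h : utVal T L a * utVal T L c = utVal T L d * utVal T L b) : a - b + c = d := by
  rw [sub_add_eq_add_sub, sub_eq_iff_eq_add]
  exact utVal_injective T L h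

variable {T G L}

/-- **SIND-UCT.** -/
theorem unitsCohTriv : UnitsCohTrivSpec := by
  intro T G L _ _ _ _ _ _ hun H
  obtain ⟨h1, h2⟩ := uct_RS T G L hun H
  constructor
  · apply isZero_H1_of_forall
    intro f hf
    obtain ⟨m, hm⟩ := h1 (fun g => toU T L (f g)) (fun g h => by
      apply Units.ext
      apply Subtype.ext
      have := congrArg (utVal T L) (hf g h)
      exact this)
    refine ⟨ofU T L m, fun g => ?_⟩
    have h3 := congrArg (fun u : (RS T L)ˣ => ((u : RS T L) : AS T L)) (eq_mul_of_div_eq (hm g))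
    exact ut_sub_eq T L ((URep T G L).ρ (g : G) (ofU T L m)) (ofU T L m) (f g) h3
  · apply isZero_H2_of_forall
    intro f hf
    obtain ⟨x, hx⟩ := h2 (fun p => toU T L (f p)) (fun g h j => by
      apply Units.ext
      apply Subtype.ext
      have := congrArg (utVal T L) (hf g h j)
      exact this)
    refine ⟨fun g => ofU T L (x g), fun g h => ?_⟩
    have h0 : uSmul ((rsAut T G L).comp H.subtype) g (x h) * x g =
        toU T L (f (g, h)) * x (g * h) := by
      have := hx g h
      rw [div_mul_eq_mul_div, div_eq_iff_eq_mul] at this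
      exact this
    have h3 := congrArg (fun u : (RS T L)ˣ => ((u : RS T L) : AS T L)) h0
    exact ut_sub_add_eq T L ((URep T G L).ρ (g : G) (ofU T L (x h))) (ofU T L (x (g * h)))
      (ofU T L (x g)) (f (g, h)) h3

end Fermat.Agent.S55.G.SIndH237.H758
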