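import Fermat.Agent.S55.G.SIndH237.UctH758.FF
import Fermat.Agent.S55.G.LocH897.Coh
import Fermat.Agent.S55.T.ShapiroH303
import Fermat.Agent.S55.T.H415.Additive

/-!
# S55 / layer G / leaf G-SIND:UCT (helper758), part 3: the residue step

`B` a finite reduced commutative ring with an action `φ : H →* (B ≃+* B)` such that every
decomposition group acts faithfully on its residue field (`Unram φ`).  Then

* `residue_h1`, `residue_h2` : every multiplicative 1- resp. 2-cocycle of `H` in `Bˣ` is a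
  coboundary (semi-local Shapiro `LocH897.gLoc_bijective_orbitRep` + `ff_h1`, `ff_h2`);
* `exists_trace_isUnit` : there is `b : B` whose trace `∑ h, φ h b` is a unit.

Also: the dictionary between `IsCoc1/IsCob1/...` and `groupCohomology (Rep.of (uRepr φ)) n`.
-/

set_option autoImplicit false
set_option linter.style.haveILetI false
set_option linter.unusedSectionVars false

namespace Fermat.Agent.S55.G.SIndH237.H758

open groupCohomology CategoryTheory

/-! ### `Hⁿ = 0` in terms of cocycles -/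

section Bridge

variable {G : Type} [Group G] (A : Rep.{0} ℤ G)

lemma isZero_H1_of_forall
    (h : ∀ f : G → A, (∀ g h : G, f (g * h) = A.ρ g (f h) + f g) →
      ∃ y : A, ∀ g : G, A.ρ g y - y = f g) :
    Limits.IsZero (groupCohomology A 1) := by
  have key : ∀ c : H1 A, c = 0 := by
    intro c
    refine H1_induction_on c fun x => (H1π_eq_zero_iff x).2 ?_
    obtain ⟨y, hy⟩ := h x ((mem_cocycles₁_iff _).1 x.2)
    refine ⟨y, ?_⟩
    funext g
    rw [d₀₁_hom_apply]
    exact hy g
  haveI : Subsingleton (groupCohomology A 1) := ⟨fun a b => by rw [key a, key b]⟩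
  exact ModuleCat.isZero_of_subsingleton _

lemma isZero_H2_of_forall
    (h : ∀ f : G × G → A,
      (∀ g h j : G, f (g * h, j) + f (g, h) = A.ρ g (f (h, j)) + f (g, h * j)) →
      ∃ x : G → A, ∀ g h : G, A.ρ g (x h) - x (g * h) + x g = f (g, h)) :
    Limits.IsZero (groupCohomology A 2) := by
  have key : ∀ c : H2 A, c = 0 := by
    intro c
    refine H2_induction_on c fun x => (H2π_eq_zero_iff x).2 ?_
    obtain ⟨y, hy⟩ := h x ((mem_cocycles₂_iff _).1 x.2)
    refine ⟨y, ?_⟩
    funext p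
    rw [d₁₂_hom_apply]
    exact hy p.1 p.2
  haveI : Subsingleton (groupCohomology A 2) := ⟨fun a b => by rw [key a, key b]⟩
  exact ModuleCat.isZero_of_subsingleton _

lemma exists_of_isZero_H1 (hz : Limits.IsZero (groupCohomology A 1))
    (f : G → A) (hf : ∀ g h : G, f (g * h) = A.ρ g (f h) + f g) :
    ∃ y : A, ∀ g : G, A.ρ g y - y = f g := by
  have hmem : f ∈ cocycles₁ A := (mem_cocycles₁_iff f).2 hf
  haveI : Subsingleton (groupCohomology A 1) :=
    (ModuleCat.isZero_iff_subsingleton).1 hz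
  have h0 : H1π A ⟨f, hmem⟩ = 0 := Subsingleton.elim _ _
  obtain ⟨y, hy⟩ := (H1π_eq_zero_iff _).1 h0
  refine ⟨y, fun g => ?_⟩
  have := congrFun hy g
  rw [d₀₁_hom_apply] at this
  exact this

lemma exists_of_isZero_H2 (hz : Limits.IsZero (groupCohomology A 2))
    (f : G × G → A)
    (hf : ∀ g h j : G, f (g * h, j) + f (g, h) = A.ρ g (f (h, j)) + f (g, h * j)) :
    ∃ x : G → A, ∀ g h : G, A.ρ g (x h) - x (g * h) + x g = f (g, h) := by
  have hmem : f ∈ cocycles₂ A := (mem_cocycles₂_iff f).2 hf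
  haveI : Subsingleton (groupCohomology A 2) :=
    (ModuleCat.isZero_iff_subsingleton).1 hz
  have h0 : H2π A ⟨f, hmem⟩ = 0 := Subsingleton.elim _ _
  obtain ⟨y, hy⟩ := (H2π_eq_zero_iff _).1 h0
  refine ⟨y, fun g h => ?_⟩
  have := congrFun hy (g, h)
  rw [d₁₂_hom_apply] at this
  exact this

end Bridge

/-! ### The dictionary for `Rep.of (uRepr φ)` -/

section Dict

variable {G R : Type} [Group G] [CommRing R] (φ : G →* (R ≃+* R))

lemma uRepr_apply (g : G) (x : Additive Rˣ) :
    LocH897.uRepr φ g x = Additive.ofMul (uSmul φ g x.toMul) := rfl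

lemma isZero_H1_uRepr (h : ∀ c : G → Rˣ, IsCoc1 φ c → IsCob1 φ c) :
    Limits.IsZero (groupCohomology (Rep.of (LocH897.uRepr φ)) 1) := by
  apply isZero_H1_of_forall
  intro f hf
  obtain ⟨m, hm⟩ := h (fun g => (f g).toMul) (fun g h => congrArg Additive.toMul (hf g h))
  exact ⟨Additive.ofMul m, fun g => congrArg Additive.ofMul (hm g)⟩

lemma isZero_H2_uRepr (h : ∀ c : G × G → Rˣ, IsCoc2 φ c → IsCob2 φ c) :
    Limits.IsZero (groupCohomology (Rep.of (LocH897.uRepr φ)) 2) := by
  apply isZero_H2_of_forall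
  intro f hf
  obtain ⟨x, hx⟩ := h (fun p => (f p).toMul)
    (fun g h j => congrArg Additive.toMul (hf g h j))
  exact ⟨fun g => Additive.ofMul (x g), fun g h => congrArg Additive.ofMul (hx g h)⟩

lemma cob1_of_isZero_uRepr
    (hz : Limits.IsZero (groupCohomology (Rep.of (LocH897.uRepr φ)) 1))
    (c : G → Rˣ) (hc : IsCoc1 φ c) : IsCob1 φ c := by
  obtain ⟨y, hy⟩ := exists_of_isZero_H1 (Rep.of (LocH897.uRepr φ)) hz
    (fun g => Additive.ofMul (c g)) (fun g h => congrArg Additive.ofMul (hc g h))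
  exact ⟨y.toMul, fun g => congrArg Additive.toMul (hy g)⟩

lemma cob2_of_isZero_uRepr
    (hz : Limits.IsZero (groupCohomology (Rep.of (LocH897.uRepr φ)) 2))
    (c : G × G → Rˣ) (hc : IsCoc2 φ c) : IsCob2 φ c := by
  obtain ⟨x, hx⟩ := exists_of_isZero_H2 (Rep.of (LocH897.uRepr φ)) hz
    (fun p => Additive.ofMul (c p)) (fun g h j => congrArg Additive.ofMul (hc g h j))
  exact ⟨fun g => (x g).toMul, fun g h => congrArg Additive.toMul (hx g h)⟩

end Dict

/-! ### The residue step -/

section Residue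

variable {H B : Type} [Group H] [CommRing B] (φ : H →* (B ≃+* B))

/-- Every decomposition group acts faithfully on its residue field. -/
def Unram : Prop :=
  ∀ 𝔪 : Ideal B, 𝔪.IsMaximal → Function.Injective (LocH897.resAut φ 𝔪)

variable [Finite B] [IsReduced B] (hφ : Unram φ)

include hφ in
lemma isZero_local (𝔪 : Ideal B) (h𝔪 : 𝔪.IsMaximal) :
    Limits.IsZero (groupCohomology (LocH897.ResUnitsRep φ 𝔪) 1) ∧
    Limits.IsZero (groupCohomology (LocH897.ResUnitsRep φ 𝔪) 2) := by
  letI : Field (B ⧸ 𝔪) := Ideal.Quotient.field 𝔪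
  haveI : Finite (B ⧸ 𝔪) :=
    Finite.of_surjective (Ideal.Quotient.mk 𝔪) Ideal.Quotient.mk_surjective
  exact ⟨isZero_H1_uRepr (LocH897.resAut φ 𝔪) (ff_h1 (LocH897.resAut φ 𝔪) (hφ 𝔪 h𝔪)),
    isZero_H2_uRepr (LocH897.resAut φ 𝔪) (ff_h2 (LocH897.resAut φ 𝔪) (hφ 𝔪 h𝔪))⟩

include hφ in
lemma isZero_global :
    Limits.IsZero (groupCohomology (Rep.of (LocH897.uRepr φ)) 1) ∧
    Limits.IsZero (groupCohomology (Rep.of (LocH897.uRepr φ)) 2) := by
  haveI : IsArtinianRing B := isArtinian_of_finite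
  have key : ∀ n : ℕ,
      (∀ o : LocH897.OrbitIdx φ,
        Limits.IsZero (groupCohomology (LocH897.ResUnitsRep φ (LocH897.orbitRep φ o)) n)) →
      Limits.IsZero (groupCohomology (Rep.of (LocH897.uRepr φ)) n) := by
    intro n hn
    have hb := LocH897.gLoc_bijective_orbitRep φ (LocH897.uRepr φ) (fun _ _ => rfl)
      Fermat.Agent.S55.T.ShapiroH303.shapiroExplicit Fermat.Agent.S55.T.H415.finiteProd n
    haveI : Subsingleton (groupCohomology (Rep.of (LocH897.uRepr φ)) n) := by
      refine ⟨fun a b => hb.1 (funext fun o => ?_)⟩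
      haveI : Subsingleton
          (groupCohomology (LocH897.ResUnitsRep φ (LocH897.orbitRep φ o)) n) :=
        (ModuleCat.isZero_iff_subsingleton).1 (hn o)
      exact Subsingleton.elim _ _
    exact ModuleCat.isZero_of_subsingleton _
  exact ⟨key 1 fun o => (isZero_local φ hφ _ (LocH897.orbitRep_isMaximal φ o)).1,
    key 2 fun o => (isZero_local φ hφ _ (LocH897.orbitRep_isMaximal φ o)).2⟩

include hφ in
/-- **Residue step, degree 1.** -/
theorem residue_h1 (c : H → Bˣ) (hc : IsCoc1 φ c) : IsCob1 φ c :=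
  cob1_of_isZero_uRepr φ (isZero_global φ hφ).1 c hc

include hφ in
/-- **Residue step, degree 2.** -/
theorem residue_h2 (c : H × H → Bˣ) (hc : IsCoc2 φ c) : IsCob2 φ c :=
  cob2_of_isZero_uRepr φ (isZero_global φ hφ).2 c hc

end Residue

end Fermat.Agent.S55.G.SIndH237.H758
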