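import Fermat.Agent.S55.G.SIndH237.UctH758.Residue

/-!
# S55 / layer G / leaf G-SIND:UCT (helper758), part 4: an element with unit trace

`B` a finite reduced commutative ring with an unramified action `φ` of a finite group `H`:
there is `b : B` such that `∑ h, φ h b` is a unit (`exists_trace_isUnit`).
-/

set_option autoImplicit false
set_option linter.style.haveILetI false
set_option linter.unusedSectionVars false

namespace Fermat.Agent.S55.G.SIndH237.H758

open CategoryTheory

section Trace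

variable {H B : Type} [Group H] [Fintype H] [CommRing B] (φ : H →* (B ≃+* B))

open scoped Classical in
/-- In a residue field on which the decomposition group acts faithfully, some element has
nonzero trace (Dedekind independence of automorphisms). -/
lemma exists_local_trace_ne_zero (hφ : Unram φ) (𝔪 : Ideal B) (h𝔪 : 𝔪.IsMaximal) :
    ∃ β : B, ∑ d : LocH897.decomp φ 𝔪, Ideal.Quotient.mk 𝔪 (φ (d : H) β) ≠ 0 := by
  classical
  letI : Field (B ⧸ 𝔪) := Ideal.Quotient.field 𝔪
  by_contra hcon0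
  have hcon : ∀ β : B, ∑ d : LocH897.decomp φ 𝔪, Ideal.Quotient.mk 𝔪 (φ (d : H) β) = 0 :=
    fun β => by_contra fun h => hcon0 ⟨β, h⟩
  let v : LocH897.decomp φ 𝔪 → ((B ⧸ 𝔪) →* (B ⧸ 𝔪)) := fun d =>
    ((LocH897.resAut φ 𝔪 d : (B ⧸ 𝔪) ≃+* (B ⧸ 𝔪)) : (B ⧸ 𝔪) →* (B ⧸ 𝔪))
  have hv : Function.Injective v := by
    intro d d' h
    apply hφ 𝔪 h𝔪
    ext x
    exact congrArg (fun f : (B ⧸ 𝔪) →* (B ⧸ 𝔪) => f x) h
  have hli := (linearIndependent_monoidHom (B ⧸ 𝔪) (B ⧸ 𝔪)).comp v hv
  have hsum : ∑ d : LocH897.decomp φ 𝔪,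
      (fun _ => (1 : B ⧸ 𝔪)) d • ((fun f : (B ⧸ 𝔪) →* (B ⧸ 𝔪) => (f : B ⧸ 𝔪 → B ⧸ 𝔪)) ∘ v) d
        = 0 := by
    funext x
    obtain ⟨β, rfl⟩ := Ideal.Quotient.mk_surjective x
    rw [Finset.sum_apply, Pi.zero_apply, ← hcon β]
    refine Finset.sum_congr rfl fun d _ => ?_
    rw [Pi.smul_apply, one_smul]
    exact LocH897.resAut_mk φ 𝔪 d β
  have := Fintype.linearIndependent_iff.1 hli (fun _ => 1) hsum 1
  exact one_ne_zero this

variable [Finite B] [IsReduced B]

/-- **Unit trace.**  For an unramified action on a finite reduced ring there is an element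
whose trace is a unit. -/
theorem exists_trace_isUnit (hφ : Unram φ) : ∃ b : B, IsUnit (∑ h : H, φ h b) := by
  classical
  haveI : IsArtinianRing B := isArtinian_of_finite
  -- local elements
  choose β hβ using fun o : LocH897.OrbitIdx φ =>
    exists_local_trace_ne_zero φ hφ (LocH897.orbitRep φ o) (LocH897.orbitRep_isMaximal φ o)
  -- the family to be interpolated
  let f : ∀ o : LocH897.OrbitIdx φ, H → B ⧸ LocH897.orbitRep φ o := fun o g =>
    if g ∈ LocH897.decomp φ (LocH897.orbitRep φ o) then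
      Ideal.Quotient.mk (LocH897.orbitRep φ o) (φ g (β o)) else 0
  have hf : ∀ o (s : LocH897.decomp φ (LocH897.orbitRep φ o)) g,
      f o (s * g) = LocH897.resAut φ (LocH897.orbitRep φ o) s (f o g) := by
    intro o s g
    have hiff : (s : H) * g ∈ LocH897.decomp φ (LocH897.orbitRep φ o) ↔
        g ∈ LocH897.decomp φ (LocH897.orbitRep φ o) :=
      Subgroup.mul_mem_cancel_left _ s.2
    by_cases hg : g ∈ LocH897.decomp φ (LocH897.orbitRep φ o)
    · simp only [f, hiff.2 hg, hg, if_true]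
      rw [LocH897.resAut_mk, phi_mul_apply]
    · have h1 : ¬ ((s : H) * g ∈ LocH897.decomp φ (LocH897.orbitRep φ o)) :=
        fun h => hg (hiff.1 h)
      simp only [f, h1, hg, if_false, map_zero]
  obtain ⟨b, hb, -⟩ := LocH897.existsUnique_ring φ (LocH897.orbitRep φ)
    (LocH897.orbitRep_isMaximal φ) (LocH897.orbitRep_cover φ) (LocH897.orbitRep_disj φ) f hf
  refine ⟨b, ?_⟩
  by_contra hu
  have hne : Ideal.span {∑ h : H, φ h b} ≠ ⊤ := fun h => hu (Ideal.span_singleton_eq_top.1 h)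
  obtain ⟨M, hM, hle⟩ := Ideal.exists_le_maximal _ hne
  have htM : ∑ h : H, φ h b ∈ M := hle (Ideal.subset_span rfl)
  obtain ⟨o, g, hog⟩ := LocH897.orbitRep_cover φ M hM
  have h1 : φ g (∑ h : H, φ h b) ∈ LocH897.orbitRep φ o := (hog _).1 htM
  have h2 : Ideal.Quotient.mk (LocH897.orbitRep φ o) (φ g (∑ h : H, φ h b)) = 0 :=
    Ideal.Quotient.eq_zero_iff_mem.2 h1
  apply hβ o
  rw [← h2, map_sum, map_sum]
  have h3 : ∀ h : H, Ideal.Quotient.mk (LocH897.orbitRep φ o) (φ g (φ h b)) = f o (g * h) := by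
    intro h
    rw [← phi_mul_apply, hb]
  rw [Finset.sum_congr rfl (fun h _ => h3 h), sum_phi_mul_left g (fun h => f o h)]
  simp only [f]
  rw [Finset.sum_ite, Finset.sum_const_zero, add_zero]
  exact (Finset.sum_subtype
    (Finset.univ.filter (fun h : H => h ∈ LocH897.decomp φ (LocH897.orbitRep φ o)))
    (fun x => by rw [Finset.mem_filter]; simp)
    (fun h => Ideal.Quotient.mk (LocH897.orbitRep φ o) (φ h (β o)))).symm

end Trace

end Fermat.Agent.S55.G.SIndH237.H758
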